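/-
MAZUR (Track M), package (G), piece CV (helper7), part 1: **the value of a function at a place**.

`F/K` a function field of one variable over an algebraically closed field, `v` a place.  The residue
field of `v` is `K` (`Lib/Curve/ResidueField`), so there is a ring homomorphism
`mzgVal : 𝒪_v →+* K`, "the value at `v`", characterised by
`mzgVal f = c ↔ OrdGE v (f - c) 1` (`mzgVal_eq_iff`).
-/
import Fermat.Agent.Lib.Curve.ResidueField

set_option autoImplicit false
set_option linter.unusedSectionVars false

namespace Fermat.Agent.Mazur

open AlgebraicCurve Fermat.Agent.Curve Fermat.Agent.Curve.PlaceAux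

section

variable {K F : Type*} [Field K] [Field F] [Algebra K F] [IsAlgClosed K] {x : F}
  (hx : IsFunctionFieldGen K F x) (v : Place K F)

/-- the residue field of a place over an algebraically closed field is the field of constants -/
noncomputable def mzgResEquiv : K ≃+* v.ResidueField :=
  RingEquiv.ofBijective (algebraMap K v.ResidueField)
    ⟨(algebraMap K v.ResidueField).injective, algebraMap_residueField_surjective hx v⟩

/-- the value of a function regular at the place `v` -/
noncomputable def mzgVal : v.toValuationSubring →+* K :=
  ((mzgResEquiv hx v).symm : v.ResidueField →+* K).comp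
    (IsLocalRing.residue v.toValuationSubring)

theorem mzgVal_apply (f : v.toValuationSubring) :
    mzgVal hx v f = (mzgResEquiv hx v).symm (IsLocalRing.residue v.toValuationSubring f) := rfl

theorem mzgVal_algebraMap (c : K) :
    mzgVal hx v (algebraMap K v.toValuationSubring c) = c := by
  rw [mzgVal_apply, RingEquiv.symm_apply_eq]
  show _ = algebraMap K v.ResidueField c
  rw [IsScalarTower.algebraMap_apply K v.toValuationSubring v.ResidueField]
  rfl

theorem mzgVal_eq_of_ordGE {f : v.toValuationSubring} {c : K}
    (h : OrdGE v ((f : F) - algebraMap K F c) 1) : mzgVal hx v f = c := by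
  rw [mzgVal_apply, RingEquiv.symm_apply_eq]
  show _ = algebraMap K v.ResidueField c
  rw [IsScalarTower.algebraMap_apply K v.toValuationSubring v.ResidueField]
  rw [IsLocalRing.ResidueField.algebraMap_eq, ← sub_eq_zero, ← map_sub,
    IsLocalRing.residue_eq_zero_iff, IsLocalRing.mem_maximalIdeal, mem_nonunits_iff]
  intro hu
  obtain ⟨u, hu⟩ := hu
  have h1 := v.ord_coe_unit u
  rw [hu] at h1
  change v.ord ((f : F) - algebraMap K F c) = 0 at h1
  rcases (ordGE_iff v).mp h with h0 | h0
  · have : (f - algebraMap K v.toValuationSubring c : v.toValuationSubring) = 0 :=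
      Subtype.ext h0
    rw [this] at hu
    exact u.ne_zero hu
  · omega

theorem mzgVal_ordGE (f : v.toValuationSubring) :
    OrdGE v ((f : F) - algebraMap K F (mzgVal hx v f)) 1 := by
  obtain ⟨c, hc⟩ := exists_const_ordGE_one hx v f.2
  rwa [mzgVal_eq_of_ordGE hx v hc]

theorem mzgVal_eq_iff (f : v.toValuationSubring) (c : K) :
    mzgVal hx v f = c ↔ OrdGE v ((f : F) - algebraMap K F c) 1 :=
  ⟨fun h => h ▸ mzgVal_ordGE hx v f, mzgVal_eq_of_ordGE hx v⟩

/-- an element with nonzero value is a unit of the valuation ring -/
theorem mzgVal_isUnit {f : v.toValuationSubring} (h : mzgVal hx v f ≠ 0) : IsUnit f := by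
  by_contra hu
  apply h
  rw [mzgVal_apply]
  have : IsLocalRing.residue v.toValuationSubring f = 0 := by
    rw [IsLocalRing.residue_eq_zero_iff, IsLocalRing.mem_maximalIdeal, mem_nonunits_iff]
    exact hu
  rw [this, map_zero]

/-- membership in the valuation ring from a congruence to a constant -/
theorem mzg_mem_of_ordGE {f : F} {c : K} (h : OrdGE v (f - algebraMap K F c) 1) :
    f ∈ v.toValuationSubring := by
  have h1 : f - algebraMap K F c ∈ v.toValuationSubring :=
    (ordGE_zero_iff_mem v).mp (h.mono v (by norm_num))
  have := v.toValuationSubring.add_mem _ _ h1 (PlaceAux.algebraMap_mem v c)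
  rwa [sub_add_cancel] at this

end

end Fermat.Agent.Mazur
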