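/-
MAZUR (Track M), package (G), piece CV (helper7), part 2: **the converter**.

`x` a place of `X₀(p)` over `ℚ̄` at which `j` takes the value `j₁` and the modular unit
`U = p^12 Δ(pτ)/Δ(τ)` the value `U₁`.  Then `j_p = j(pτ)` takes a finite value `j₂` at `x`,
`Ψ_p(U₁, j₁) = 0` and (Fricke duality) `Ψ_p(p^12/U₁, j₂) = 0`.  For a valuation `v` of `ℚ̄` with
`v(p) = 1` and `v(j₁) > 1` (potentially multiplicative reduction) the Newton polygons of
`NP/Main.lean` give

* `v(U₁) < 1` ⇒ `v(j₂) = v(j₁)^p`   (the reduction of `x` is near the cusp `∞`);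
* `v(U₁) > 1` ⇒ `v(j₁) = v(j₂)^p`   (the reduction of `x` is near the cusp `0`).

This is the `(j, j_p)`-valuation shape consumed by package (R) (`MzrRedInfty`/`MzrRedZero`).
-/
import Fermat.Agent.Lib.Mazur.G.NP.Main
import Fermat.Agent.Lib.Mazur.G.CV.PlaceVal
import Fermat.Agent.Lib.T2.Inst.Cusp
import Fermat.Agent.Lib.Igusa.DeltaQuotUnit
import Fermat.Agent.Lib.T1.GoodRed.Level

set_option autoImplicit false
set_option linter.unusedSectionVars false

namespace Fermat.Agent.Mazur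

open ModularCurve Fermat.Agent.Igusa Fermat.Agent.T1 Fermat.Agent.T2 AlgebraicCurve Polynomial
  Fermat.Agent.Curve Fermat.Agent.Curve.PlaceAux Fermat.Agent.S24Lib

local notation "Qb" => AlgebraicClosure ℚ

/-- the modular unit `U_r = r^12 Δ(q^r)/Δ(q)` in the function field of `X₀(N)` over `ℚ̄`, `r ∣ N` -/
noncomputable def mzgU (N r : ℕ) [NeZero N] [NeZero r] (hr : r ∣ N) :
    ↥(modularFunctionFieldBar N) :=
  ⟨coeffEmb Qb (unitInfLS ℚ r), coeffEmb_mem_laurentBaseChange Qb (unitInfLS_mem_full N hr)⟩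

theorem coe_mzgU (N r : ℕ) [NeZero N] [NeZero r] (hr : r ∣ N) :
    ((mzgU N r hr : ↥(modularFunctionFieldBar N)) : LaurentSeries Qb) = unitInfLS Qb r :=
  ta_coeffEmb_unitInfLS r

section Spec

variable {p : ℕ} [NeZero p] (x : Place Qb ↥(modularFunctionFieldBar p))

/-- the inclusion of the valuation ring of a place into the Laurent series -/
noncomputable def mzgInc : ↥x.toValuationSubring →+* LaurentSeries Qb :=
  ((modularFunctionFieldBar p).val : ↥(modularFunctionFieldBar p) →+* LaurentSeries Qb).comp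
    x.toValuationSubring.subtype

theorem mzgInc_apply (f : ↥x.toValuationSubring) :
    mzgInc x f = ((f : ↥(modularFunctionFieldBar p)) : LaurentSeries Qb) := rfl

theorem mzgInc_injective : Function.Injective (mzgInc x) := fun _ _ h =>
  Subtype.ext (Subtype.ext h)

theorem mzgInc_algebraMap (c : Qb) :
    mzgInc x (algebraMap Qb ↥x.toValuationSubring c) = HahnSeries.C c := by
  show algebraMap Qb (LaurentSeries Qb) c = HahnSeries.C c
  have h1 : algebraMap Qb (PowerSeries Qb) c = PowerSeries.C c := by simp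
  rw [HahnSeries.algebraMap_apply', h1, HahnSeries.ofPowerSeries_C]

/-- evaluation of polynomials at an element of the valuation ring -/
noncomputable def mzgAev (a : ↥x.toValuationSubring) : Qb[X] →+* ↥x.toValuationSubring :=
  (Polynomial.aeval a : Qb[X] →ₐ[Qb] ↥x.toValuationSubring).toRingHom

theorem mzgInc_comp_aev (a : ↥x.toValuationSubring) :
    (mzgInc x).comp (mzgAev x a) = Polynomial.eval₂RingHom HahnSeries.C (mzgInc x a) := by
  apply Polynomial.ringHom_ext
  · intro c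
    show mzgInc x (Polynomial.aeval a (Polynomial.C c)) = _
    rw [Polynomial.aeval_C, mzgInc_algebraMap]
    simp
  · show mzgInc x (Polynomial.aeval a Polynomial.X) = _
    rw [Polynomial.aeval_X]
    simp

theorem mzgVal_comp_aev (a : ↥x.toValuationSubring) :
    (mzgVal (t2cp_isFunctionFieldGen_tbJ p) x).comp (mzgAev x a)
      = Polynomial.evalRingHom (mzgVal (t2cp_isFunctionFieldGen_tbJ p) x a) := by
  apply Polynomial.ringHom_ext
  · intro c
    show mzgVal _ x (Polynomial.aeval a (Polynomial.C c)) = _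
    rw [Polynomial.aeval_C, mzgVal_algebraMap]
    simp
  · show mzgVal _ x (Polynomial.aeval a Polynomial.X) = _
    rw [Polynomial.aeval_X]
    simp

/-- **specialisation of a two-variable relation at a place** -/
theorem mzg_specialise (Ψ : Qb[X][X]) (a b : ↥x.toValuationSubring)
    (h : Ψ.eval₂ (Polynomial.eval₂RingHom HahnSeries.C (mzgInc x a)) (mzgInc x b) = 0) :
    evalEval (mzgVal (t2cp_isFunctionFieldGen_tbJ p) x a)
      (mzgVal (t2cp_isFunctionFieldGen_tbJ p) x b) Ψ = 0 := by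
  have h1 : Ψ.eval₂ (mzgAev x a) b = 0 := by
    apply mzgInc_injective x
    rw [Polynomial.hom_eval₂, mzgInc_comp_aev, h, map_zero]
  have h2 := congrArg (mzgVal (t2cp_isFunctionFieldGen_tbJ p) x) h1
  rw [Polynomial.hom_eval₂, mzgVal_comp_aev, map_zero, eval₂_evalRingHom] at h2
  exact h2

end Spec

section Convert

variable {p : ℕ} [NeZero p] (hp : p.Prime)

/-- `(qExpand p) ∘ evalJ` is evaluation at `j(q^p)` -/
theorem mzg_qExpand_comp_evalJ :
    (qExpand Qb p).comp (evalJ Qb)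
      = Polynomial.eval₂RingHom HahnSeries.C (qExpand Qb p (jqModC Qb)) := by
  apply Polynomial.ringHom_ext
  · intro c
    show qExpand Qb p (evalJ Qb (Polynomial.C c)) = _
    rw [evalJ_C, qExpand_C]
    simp
  · show qExpand Qb p (evalJ Qb Polynomial.X) = _
    rw [evalJ_X]
    simp

theorem mzg_evalJ_eq :
    evalJ Qb = Polynomial.eval₂RingHom HahnSeries.C (jqModC Qb) := rfl

/-- a root of `Ψ_p(X, y)` in characteristic zero is never `0` -/
theorem mzg_psi_root_ne_zero {K : Type*} [Field K] [CharZero K] {u y : K}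
    (h : evalEval y u (modPsiK p hp K) = 0) : u ≠ 0 := by
  rintro rfl
  rw [← mzgPsiAt_eval hp, ← coeff_zero_eq_eval_zero, mzgPsiAt_coeff, mzg_modPsi_coeff_zero,
    Polynomial.map_C, eval_C] at h
  have h2 : ((p : ℤ) ^ 12 : ℤ) ≠ 0 := pow_ne_zero 12 (Nat.cast_ne_zero.mpr (NeZero.ne p))
  exact h2 (by exact_mod_cast (Int.cast_eq_zero (α := K)).mp h)

/-- **the converter**: values of `(j, U)` at a place ⇒ value of `j_p` and the two relations -/
theorem mzg_convert_rel (x : Place Qb ↥(modularFunctionFieldBar p)) (j₁ U₁ : Qb)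
    (hj : OrdGE x (tbJ p - algebraMap Qb _ j₁) 1)
    (hU : OrdGE x (mzgU p p (dvd_refl p) - algebraMap Qb _ U₁) 1) :
    ∃ j₂ : Qb, OrdGE x (t2cpYq p p (dvd_refl p) - algebraMap Qb _ j₂) 1 ∧
      evalEval j₁ U₁ (modPsiK p hp Qb) = 0 ∧
      evalEval j₂ ((p : Qb) ^ 12 / U₁) (modPsiK p hp Qb) = 0 := by
  have hgen := t2cp_isFunctionFieldGen_tbJ p
  have hjm : tbJ p ∈ x.toValuationSubring := mzg_mem_of_ordGE x hj
  have hUm : mzgU p p (dvd_refl p) ∈ x.toValuationSubring := mzg_mem_of_ordGE x hU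
  have hYm : t2cpYq p p (dvd_refl p) ∈ x.toValuationSubring := by
    apply mem_of_ord_nonneg
    exact t2cp_ord_Y_nonneg Qb p ⟨p, Nat.pos_of_ne_zero (NeZero.ne p)⟩ (dvd_refl p) x
      (ord_nonneg_of_mem x hjm)
  set a : ↥x.toValuationSubring := ⟨tbJ p, hjm⟩ with ha
  set b : ↥x.toValuationSubring := ⟨mzgU p p (dvd_refl p), hUm⟩ with hb
  set a' : ↥x.toValuationSubring := ⟨t2cpYq p p (dvd_refl p), hYm⟩ with ha'
  have hva : mzgVal hgen x a = j₁ := mzgVal_eq_of_ordGE hgen x hj
  have hvb : mzgVal hgen x b = U₁ := mzgVal_eq_of_ordGE hgen x hU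
  -- first relation
  have hrel1 : evalEval j₁ U₁ (modPsiK p hp Qb) = 0 := by
    have := mzg_specialise x (modPsiK p hp Qb) a b (by
      have h0 := modPsiK_eval_left p hp Qb
      rw [mzg_evalJ_eq] at h0
      have e1 : mzgInc x a = jqModC Qb := rfl
      have e2 : mzgInc x b = unitInfLS Qb p := coe_mzgU p p (dvd_refl p)
      rw [e1, e2]
      exact h0)
    rwa [hva, hvb] at this
  -- `U₁ ≠ 0`
  have hU0 : U₁ ≠ 0 := mzg_psi_root_ne_zero hp hrel1
  have hbu : IsUnit b := mzgVal_isUnit hgen x (by rw [hvb]; exact hU0)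
  obtain ⟨u, hu⟩ := hbu
  set b' : ↥x.toValuationSubring :=
    algebraMap Qb ↥x.toValuationSubring ((p : Qb) ^ 12) * ((u⁻¹ : (↥x.toValuationSubring)ˣ) :
      ↥x.toValuationSubring) with hb'
  have hb'b : b' * b = algebraMap Qb ↥x.toValuationSubring ((p : Qb) ^ 12) := by
    rw [hb', ← hu, mul_assoc, Units.inv_mul, mul_one]
  have hvb' : mzgVal hgen x b' = (p : Qb) ^ 12 / U₁ := by
    have := congrArg (mzgVal hgen x) hb'b
    rw [map_mul, hvb, mzgVal_algebraMap] at this
    rw [eq_div_iff hU0, this]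
  have hincb' : mzgInc x b' = unitFinLS Qb p := by
    have h1 := congrArg (mzgInc x) hb'b
    rw [map_mul, mzgInc_algebraMap] at h1
    have e2 : mzgInc x b = unitInfLS Qb p := coe_mzgU p p (dvd_refl p)
    rw [e2, ← unitFinLS_mul_unitInfLS] at h1
    have hne : unitInfLS Qb p ≠ 0 := by
      intro h0
      have := unitFinLS_mul_unitInfLS (K := Qb) p
      rw [h0, mul_zero] at this
      have h3 := congrArg (fun s : LaurentSeries Qb => s.coeff 0) this
      simp only [HahnSeries.coeff_zero, HahnSeries.C_apply, HahnSeries.coeff_single_same] at h3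
      exact pow_ne_zero 12 (Nat.cast_ne_zero.mpr (NeZero.ne p)) h3.symm
    exact mul_right_cancel₀ hne h1
  refine ⟨mzgVal hgen x a', mzgVal_ordGE hgen x a', hrel1, ?_⟩
  have := mzg_specialise x (modPsiK p hp Qb) a' b' (by
    have h0 := modPsiK_eval_right p hp Qb
    rw [mzg_qExpand_comp_evalJ] at h0
    have e1 : mzgInc x a' = qExpand Qb p (jqModC Qb) := rfl
    rw [e1, hincb']
    exact h0)
  rwa [hvb'] at this

/-- **the valuation bookkeeping of the converter**: from the two relations `Ψ_p(U₁, j₁) = 0`,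
`Ψ_p(p^12/U₁, j₂) = 0` and `v(j₁) > 1` -/
theorem mzg_convert_val {K : Type*} [Field K] {Γ₀ : Type*} [LinearOrderedCommGroupWithZero Γ₀]
    (v : Valuation K Γ₀) (hpv : v (p : K) = 1) {j₁ U₁ j₂ : K} (hj₁ : 1 < v j₁)
    (h1 : evalEval j₁ U₁ (modPsiK p hp K) = 0)
    (h2 : evalEval j₂ ((p : K) ^ 12 / U₁) (modPsiK p hp K) = 0) :
    (v U₁ < 1 → v j₂ = v j₁ ^ p) ∧ (1 < v U₁ → v j₁ = v j₂ ^ p) := by
  have hp1 : p - 1 ≠ 0 := by have := hp.two_le; omega
  have hU0 : U₁ ≠ 0 := mzg_newton_root_ne_zero v hp hpv h1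
  have hvU0 : v U₁ ≠ 0 := (Valuation.ne_zero_iff v).mpr hU0
  have hvU2 : v ((p : K) ^ 12 / U₁) = (v U₁)⁻¹ := by
    rw [map_div₀, map_pow, hpv, one_pow, one_div]
  -- in both cases `v(j₂) > 1`
  have hj₂ : v U₁ ≠ 1 → 1 < v j₂ := by
    intro hne
    by_contra hcon
    push Not at hcon
    have := mzg_newton_unit v hp hpv hcon h2
    rw [hvU2, inv_eq_one] at this
    exact hne this
  constructor
  · intro hU
    have hs := hj₂ hU.ne
    have hsmall := (mzg_newton_small v hp hpv hj₁ h1 hU.le).1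
    have hU2 : v ((p : K) ^ 12 / U₁) = v j₁ ^ (p - 1) := by
      rw [hvU2]
      exact inv_eq_of_mul_eq_one_right hsmall
    have hbig : 1 < v ((p : K) ^ 12 / U₁) := by
      rw [hU2]
      exact one_lt_pow₀ hj₁ hp1
    have hlarge := mzg_newton_large v hp hpv hs h2 hbig
    rw [hU2, ← pow_mul, mul_comm, pow_mul] at hlarge
    exact ((pow_left_inj₀ zero_le zero_le hp1).mp hlarge).symm
  · intro hU
    have hs := hj₂ hU.ne'
    have hlarge := mzg_newton_large v hp hpv hj₁ h1 hU
    have hlt : v ((p : K) ^ 12 / U₁) ≤ 1 := by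
      rw [hvU2]
      exact inv_le_one_of_one_le₀ hU.le
    have hsmall := (mzg_newton_small v hp hpv hs h2 hlt).1
    rw [hvU2] at hsmall
    have hU' : v j₂ ^ (p - 1) = v U₁ := by
      have := congrArg (fun t => v U₁ * t) hsmall
      simp only [mul_one] at this
      rw [← mul_assoc, mul_inv_cancel₀ hvU0, one_mul] at this
      exact this
    rw [← hU', ← pow_mul, mul_comm, pow_mul] at hlarge
    exact ((pow_left_inj₀ zero_le zero_le hp1).mp hlarge).symm

include hp in
/-- **(CV)** the converter in the `(j, j_p)`-valuation shape of package (R) -/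
theorem mzg_convert (x : Place Qb ↥(modularFunctionFieldBar p)) (j₁ U₁ : Qb)
    (hj : OrdGE x (tbJ p - algebraMap Qb _ j₁) 1)
    (hU : OrdGE x (mzgU p p (dvd_refl p) - algebraMap Qb _ U₁) 1) :
    ∃ j₂ : Qb, OrdGE x (t2cpYq p p (dvd_refl p) - algebraMap Qb _ j₂) 1 ∧
      ∀ A : ValuationSubring Qb, A.valuation (p : Qb) = 1 → 1 < A.valuation j₁ →
        (A.valuation U₁ < 1 → A.valuation j₂ = A.valuation j₁ ^ p) ∧
        (1 < A.valuation U₁ → A.valuation j₁ = A.valuation j₂ ^ p) := by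
  obtain ⟨j₂, hj₂, h1, h2⟩ := mzg_convert_rel hp x j₁ U₁ hj hU
  exact ⟨j₂, hj₂, fun A hAp hj₁ => mzg_convert_val hp A.valuation hAp hj₁ h1 h2⟩

end Convert

end Fermat.Agent.Mazur
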